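import Fermat.Agent.MR.Contracts
import Fermat.Agent.MR.A.Bridge

/-! # MR : glue lemma of the chain (`MR/Chain.lean`) -/

set_option autoImplicit false

open ModularCurve AlgebraicCurve
open WeierstrassCurve WeierstrassCurve.Affine WeierstrassCurve.Affine.Point
open FreyPackage

noncomputable section

namespace Fermat.Agent.MR

open Fermat.Agent.GAL Fermat.Agent.GR Fermat.Agent.GAL.KLC
open Fermat.Agent.MR.A (S2b opT opU PDiv Rb Fb dlog)
open Fermat.Agent.MR.E (HH FixU)

/-- **MR-CH-7** bridge to the coefficientwise shape of `MR.H.QExp` (coefficients of `GR.qContract`, `qExpand`). -/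
theorem isFormalEig_of_opT {K : Type*} [Field K] (M : ℕ) {ℓ : ℕ} [NeZero ℓ] (hℓ : ¬ ℓ ∣ M) {c : K}
    {w : LaurentSeries K} (h : opT ℓ w = HahnSeries.C c * w) : H.IsFormalEig M ℓ c w :=
  A.isFormalEig_of_opT M ℓ hℓ h

end Fermat.Agent.MR
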