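import Fermat.Agent.MR.Contracts

/-! # MR : glue lemma of the chain (`MR/Chain.lean`) -/

set_option autoImplicit false

open ModularCurve AlgebraicCurve
open WeierstrassCurve WeierstrassCurve.Affine WeierstrassCurve.Affine.Point
open FreyPackage

noncomputable section

namespace Fermat.Agent.MR

open Fermat.Agent.GAL Fermat.Agent.GR Fermat.Agent.GAL.KLC
open Fermat.Agent.MR.A (S2b opT opU PDiv Rb Fb dlog)
open Fermat.Agent.MR.E (HH FixU)

theorem FormalRel_coeff_iterate {K : Type*} [Field K] (r : ℕ) [NeZero r] (i : ℕ)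
    (w : LaurentSeries K) (n : ℤ) : ((opU r)^[i] w).coeff n = w.coeff (n * (r : ℤ) ^ i) := by
  induction i generalizing n with
  | zero => rw [Function.iterate_zero, id_eq, pow_zero, mul_one]
  | succ i ih =>
    rw [Function.iterate_succ_apply']
    show (GR.qContract r ((opU r)^[i] w)).coeff n = _
    rw [GR.qContract_coeff, ih, pow_succ]
    congr 1
    ring

/-- **MR-CH-8** bridge to the coefficientwise shape of `MR.H.QExp`
(`((opU r)^[i] w).coeff n = w.coeff (n * r^i)` by induction on `i`; `Polynomial.sum_def`, `HahnSeries.coeff_sum`). -/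
theorem isFormalRel_of_opU {K : Type*} [Field K] {r : ℕ} [NeZero r] (R : Polynomial ℤ)
    {w : LaurentSeries K}
    (h : R.sum (fun i c => HahnSeries.C ((c : ℤ) : K) * (opU r)^[i] w) = 0) :
    H.IsFormalRel r R w := by
  intro n
  have h1 := congrArg (fun F : LaurentSeries K => F.coeff (n : ℤ)) h
  simp only [Polynomial.sum_def, HahnSeries.coeff_sum, HahnSeries.coeff_zero] at h1
  rw [Polynomial.sum_def, ← h1]
  refine Finset.sum_congr rfl fun i _ => ?_
  rw [HahnSeries.C_mul_eq_smul, HahnSeries.coeff_smul, smul_eq_mul, FormalRel_coeff_iterate]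
  push_cast
  rfl

end Fermat.Agent.MR
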