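import Fermat.Agent.MR.Contracts
import Fermat.Agent.TOR.T1C.Main

/-! # MR : glue lemma of the chain (`MR/Chain.lean`) -/

set_option autoImplicit false

open ModularCurve AlgebraicCurve
open WeierstrassCurve WeierstrassCurve.Affine WeierstrassCurve.Affine.Point
open FreyPackage

noncomputable section

namespace Fermat.Agent.MR

open Fermat.Agent.GAL Fermat.Agent.GR Fermat.Agent.GAL.KLC
open Fermat.Agent.MR.A (S2b opT opU PDiv Rb Fb dlog)
open Fermat.Agent.MR.E (HH FixU)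

/-- **MR-CH-3** the residue field of level `M₁ p` at `∞` is the residue field of level `M₁` (`TOR.T1.exists_rd₀` through
`T1C.lvl`, `T1C.rd_iff`; `MR.A.mem_Fb`). -/
theorem chain_mem_Fb (M₁ p : ℕ) [NeZero M₁] [NeZero p] (hM : AdmLevel M₁) (hp : p.Prime)
    (hpM : ¬ p ∣ M₁) (A : ValuationSubring Qb) (hA : A.LiesOverPrime p) {z : LaurentSeries Qb}
    (hz : z ∈ FL Qb (M₁ * p)) {φ : LaurentSeries (kA A)} (h : HasRed A z φ) : φ ∈ Fb A M₁ := by
  have H := TOR.T1C.lvl A M₁ p hp hpM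
  have X := TOR.T1C.xDat M₁ p hp A hA (spansStatement M₁) (riStatement M₁)
    (ctStatement M₁ p hM hp hpM A hA)
  have hArch := arch A (M₁ * p) hp hA
  have hdeg := TOR.T1C.finrankAlong_alp M₁ p hp hpM
  have h' : TOR.T1.Rd (rho A (M₁ * p)) (⟨z, hz⟩ : FL Qb (M₁ * p)) φ :=
    (TOR.T1C.rd_iff (M₁ * p) A).2 h
  obtain ⟨c, hc⟩ := TOR.T1.exists_rd₀ H X hp.two_le hArch hdeg h'
  exact MR.A.mem_Fb.2 ⟨c, c.2, (TOR.T1C.rd_iff M₁ A).1 hc⟩

end Fermat.Agent.MR
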