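import Fermat.Agent.MR.Contracts

/-! # MR : glue lemma of the chain (`MR/Chain.lean`) -/

set_option autoImplicit false

open ModularCurve AlgebraicCurve
open WeierstrassCurve WeierstrassCurve.Affine WeierstrassCurve.Affine.Point
open FreyPackage

noncomputable section

namespace Fermat.Agent.MR

open Fermat.Agent.GAL Fermat.Agent.GR Fermat.Agent.GAL.KLC
open Fermat.Agent.MR.A (S2b opT opU PDiv Rb Fb dlog)
open Fermat.Agent.MR.E (HH FixU)

/-- **MR-CH-2** Gauss normalisation: a non-zero element of the function field has a constant multiple with non-zero reduction.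
(`GR.exists_hasRed_of_mem_GField`, `DSC.exists_const_hasRed`, `MR.A.HeckeRed` uses the same fact in `dlog_eq_zero_of_eq_C_mul_pow`.) -/
theorem chain_exists_norm (A : ValuationSubring Qb) {N : ℕ} {H : LaurentSeries Qb} (hH : H ∈ FL Qb N)
    (h0 : H ≠ 0) : ∃ (c : Qb) (ab : LaurentSeries (kA A)), c ≠ 0 ∧ ab ≠ 0 ∧
      HasRed A (HahnSeries.C c * H) ab := by
  obtain ⟨c, hc, z, hz, hred⟩ := GR.exists_hasRed_C_mul_of_mem_FL A N hH h0
  exact ⟨c, z, hc, hz, hred⟩

end Fermat.Agent.MR
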