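import Fermat.Agent.MR.Contracts
import Fermat.Agent.TOR.GB.Norm
import Fermat.Agent.GAL.Mod.Kum

/-! # MR : glue lemma of the chain (`MR/Chain.lean`) -/

set_option autoImplicit false

open ModularCurve AlgebraicCurve
open WeierstrassCurve WeierstrassCurve.Affine WeierstrassCurve.Affine.Point
open FreyPackage

noncomputable section

namespace Fermat.Agent.MR

open Fermat.Agent.GAL Fermat.Agent.GR Fermat.Agent.GAL.KLC
open Fermat.Agent.MR.A (S2b opT opU PDiv Rb Fb dlog)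
open Fermat.Agent.MR.E (HH FixU)

section Core

variable {M₁ p : ℕ} [NeZero M₁] [NeZero p]

/-- **MR-CH-4** (block B): the reduction at `∞` of a generator of a non-trivial `U_p`-periodic class fixed by `s0 ∈ I`, `ε(s0) = 2`, is not a
`p`-th power.
PROOF: let `ab = w^p`, `w ∈ Fb A M₁`; `w ≠ 0`; `MR.A.mem_Fb`: `z ∈ FL Qb M₁`, `HasRed A z w`; `z ∈ FL Qb (M₁ * p)` (level raising:
`FL` is monotone for divisibility); `c₁^p = c` (`IsAlgClosed.exists_pow_nat_eq`); `u' := C c₁ * u / z`, `u'^p = C c * u^p / z^p` has reduction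
`ab / w^p = 1` (`HasRed.div`, `HasRed.pow`).  `u'` is `IsKum` (`u' / u ∈ FL`: see `GAL/Mod/Kum.lean`), `U_p`-periodic with `n = 2` and `s0`-fixed
(`NmL Qb p`, `galS s0` preserve `FL Qb (M₁ * p)`: `TOR/GB/Norm.lean`, `galS_mem_FL`; constants are in `FL`).  `hCore` gives `u' ∈ FL`, so `u ∈ FL`. -/
theorem not_pow_of_core (hCore : ORD.CoreStatement) (hM : AdmLevel M₁) (hp : p.Prime)
    (hp5 : 5 ≤ p) (hpM : ¬ p ∣ M₁) (A : ValuationSubring Qb) (hA : A.LiesOverPrime p)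
    {s0 : GQ} (hs0 : s0 ∈ A.inertiaSubgroupIn ℚ) (hs0ζ : ∀ ζ : Qb, ζ ^ p = 1 → s0 ζ = ζ ^ 2)
    {u : LaurentSeries Qb} (hu : IsKum Qb (M₁ * p) p u) (hun : u ∉ FL Qb (M₁ * p))
    (hUp : NmL Qb p (NmL Qb p u) / u ∈ FL Qb (M₁ * p)) (hs0u : galS s0 u / u ∈ FL Qb (M₁ * p))
    {c : Qb} {ab : LaurentSeries (kA A)} (hred : HasRed A (HahnSeries.C c * u ^ p) ab)
    (hab : ab ≠ 0) : ¬ ∃ w ∈ Fb A M₁, w ^ p = ab := by
  rintro ⟨w, hw, hwp⟩
  have hw0 : w ≠ 0 := by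
    rintro rfl
    rw [zero_pow hp.ne_zero] at hwp
    exact hab hwp.symm
  obtain ⟨z, hz, hzw⟩ := MR.A.mem_Fb.1 hw
  have hz0 : z ≠ 0 := hzw.ne_zero hw0
  have hzM : z ∈ FL Qb (M₁ * p) := TOR.GB.FL_le_mul M₁ p hz
  obtain ⟨c₁, hc₁⟩ := IsAlgClosed.exists_pow_nat_eq c hp.pos
  have hc0 : c ≠ 0 := by
    rintro rfl
    have := hred.ne_zero hab
    rw [_root_.map_zero, zero_mul] at this
    exact this rfl
  have hc₁0 : c₁ ≠ 0 := by
    rintro rfl
    rw [zero_pow hp.ne_zero] at hc₁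
    exact hc0 hc₁.symm
  have hC0 : (HahnSeries.C c₁ : LaurentSeries Qb) ≠ 0 := by
    intro h
    apply hc₁0
    have := congrArg (fun f : LaurentSeries Qb => f.coeff 0) h
    simpa using this
  obtain ⟨f, hf⟩ : ∃ f : LaurentSeries Qb, f = HahnSeries.C c₁ / z := ⟨_, rfl⟩
  have hfM : f ∈ FL Qb (M₁ * p) := by
    rw [hf]
    exact div_mem (C_mem_FL _ c₁) hzM
  have hf0 : f ≠ 0 := by
    rw [hf]
    exact div_ne_zero hC0 hz0
  have hu'K : IsKum Qb (M₁ * p) p (f * u) := (isKum_of_mem hfM hf0).mul hu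
  have hu'red : HasRed A ((f * u) ^ p) 1 := by
    have h1 := hred.div (hzw.pow p) (pow_ne_zero p hw0)
    rw [hwp, div_self hab] at h1
    have e : (f * u) ^ p = HahnSeries.C c * u ^ p / z ^ p := by
      rw [hf, mul_pow, div_pow, ← map_pow, hc₁]
      ring
    rwa [e]
  have hper : ∃ n : ℕ, 0 < n ∧ ((NmL Qb p)^[n] (f * u)) / (f * u) ∈ FL Qb (M₁ * p) := by
    refine ⟨2, by norm_num, ?_⟩
    show NmL Qb p (NmL Qb p (f * u)) / (f * u) ∈ _
    rw [map_mul, map_mul, mul_div_mul_comm]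
    exact mul_mem (div_mem (TOR.GB.NmL_mem_FL hp hpM (TOR.GB.NmL_mem_FL hp hpM hfM)) hfM) hUp
  have hfix : galS s0 (f * u) / (f * u) ∈ FL Qb (M₁ * p) := by
    rw [map_mul, mul_div_mul_comm]
    exact mul_mem (div_mem (galS_mem_FL s0 hfM) hfM) hs0u
  have h2 : ¬ 2 ≡ 1 [MOD p] := by
    intro h
    have h3 := (Nat.modEq_iff_dvd' (by norm_num : 1 ≤ 2)).1 h.symm
    have h4 := Nat.le_of_dvd (by norm_num) h3
    omega
  have hmem := hCore M₁ p (NeZero.ne M₁) hM hp (by omega) hpM A hA s0 hs0 2 hs0ζ h2 (f * u) hu'K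
    hu'red hper hfix
  apply hun
  have e : u = f * u / f := by
    rw [mul_div_cancel_left₀ _ hf0]
  rw [e]
  exact div_mem hmem hfM

end Core

end Fermat.Agent.MR
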