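import Fermat.Agent.MR.Contracts
import Fermat.Agent.GAL.ESR.Field

/-! # MR : glue lemma of the chain (`MR/Chain.lean`) -/

set_option autoImplicit false

open ModularCurve AlgebraicCurve
open WeierstrassCurve WeierstrassCurve.Affine WeierstrassCurve.Affine.Point
open FreyPackage

noncomputable section

namespace Fermat.Agent.MR

open Fermat.Agent.GAL Fermat.Agent.GR Fermat.Agent.GAL.KLC
open Fermat.Agent.MR.A (S2b opT opU PDiv Rb Fb dlog)
open Fermat.Agent.MR.E (HH FixU)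

/-- **MR-CH-5** Hecke relation for `dlog` of the reduction.
PROOF: `g := heckeS Qb ℓ u / u ^ e`; `H := C c * u^p`; `heckeS Qb ℓ H = heckeS (C c) * (heckeS u)^p = C c' * H^e * g^p` with
`heckeS Qb ℓ (C c) = C (c^(ℓ+1))` (`heckeS_C`), `c' = c^(ℓ+1) / c^e`; then `MR.A.opT_dlog_of_eigen`. -/
theorem opT_dlog_of_sim {p : ℕ} (hp : p.Prime) (A : ValuationSubring Qb) (hA : A.LiesOverPrime p)
    {ℓ : ℕ} [NeZero ℓ] (hℓp : ¬ p ∣ ℓ) {N : ℕ} {u : LaurentSeries Qb} (hu0 : u ≠ 0) {e : ℤ}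
    (h : heckeS Qb ℓ u / u ^ e ∈ FL Qb N) {c : Qb} (hc : c ≠ 0) {ab : LaurentSeries (kA A)}
    (hred : HasRed A (HahnSeries.C c * u ^ p) ab) (hab : ab ≠ 0) :
    opT ℓ (dlog ab) = HahnSeries.C ((e : ℤ) : kA A) * dlog ab := by
  have hue : u ^ e ≠ 0 := zpow_ne_zero e hu0
  have hC0 : (HahnSeries.C c : LaurentSeries Qb) ≠ 0 := by
    rw [Ne, map_eq_zero]
    exact hc
  have hCe : (HahnSeries.C (c ^ e) : LaurentSeries Qb) = (HahnSeries.C c) ^ e :=
    map_zpow₀ (HahnSeries.C : Qb →+* LaurentSeries Qb) c e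
  have hCe0 : ((HahnSeries.C c : LaurentSeries Qb)) ^ e ≠ 0 := zpow_ne_zero e hC0
  have hu : heckeS Qb ℓ u = (heckeS Qb ℓ u / u ^ e) * u ^ e := by
    field_simp
  refine Fermat.Agent.MR.A.opT_dlog_of_eigen hp hA hℓp h hred hab e (c ^ (ℓ + 1) / c ^ e) ?_
  rw [map_mul, map_pow, heckeS_C, map_div₀, hCe, mul_zpow]
  conv_lhs => rw [hu]
  have h1 : (u ^ p) ^ e = (u ^ e) ^ p := by
    rw [← zpow_natCast, ← zpow_natCast, ← zpow_mul, ← zpow_mul, mul_comm]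
  rw [h1, mul_pow]
  field_simp

end Fermat.Agent.MR
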