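import Fermat.Agent.MR.Contracts
import Fermat.Agent.TOR.GBB.ToricFormal

/-! # MR : glue lemma of the chain (`MR/Chain.lean`) -/

set_option autoImplicit false

open ModularCurve AlgebraicCurve
open WeierstrassCurve WeierstrassCurve.Affine WeierstrassCurve.Affine.Point
open FreyPackage

noncomputable section

namespace Fermat.Agent.MR

open Fermat.Agent.GAL Fermat.Agent.GR Fermat.Agent.GAL.KLC
open Fermat.Agent.MR.A (S2b opT opU PDiv Rb Fb dlog)
open Fermat.Agent.MR.E (HH FixU)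

/-- iterates of `U_r` on `c u^p`. -/
theorem OpU_iterate_C_mul_pow (r : ℕ) [NeZero r] (p : ℕ) (u : LaurentSeries Qb) (c : Qb) (i : ℕ) :
    ∃ c' : Qb, (NmL Qb r)^[i] (HahnSeries.C c * u ^ p) =
      HahnSeries.C c' * ((NmL Qb r)^[i] u) ^ p := by
  induction i with
  | zero => exact ⟨c, rfl⟩
  | succ i ih =>
    obtain ⟨c', hc'⟩ := ih
    refine ⟨c' ^ r, ?_⟩
    rw [Function.iterate_succ_apply', Function.iterate_succ_apply', hc',
      Fermat.Agent.TOR.GBB.NmL_C_mul, map_pow (NmL Qb r)]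

/-- the product of the powers of the iterates of `c u^p`. -/
theorem OpU_prod_C_mul_pow (r : ℕ) [NeZero r] (p : ℕ) (u : LaurentSeries Qb) (c : Qb) (a : ℕ → ℤ)
    (s : Finset ℕ) :
    ∃ c' : Qb, ∏ i ∈ s, ((NmL Qb r)^[i] (HahnSeries.C c * u ^ p)) ^ (a i) =
      HahnSeries.C c' * (∏ i ∈ s, ((NmL Qb r)^[i] u) ^ (a i)) ^ p := by
  classical
  induction s using Finset.induction_on with
  | empty => exact ⟨1, by simp⟩
  | insert j s hj ih =>
    obtain ⟨c', hc'⟩ := ih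
    obtain ⟨cj, hcj⟩ := OpU_iterate_C_mul_pow r p u c j
    refine ⟨cj ^ (a j) * c', ?_⟩
    rw [Finset.prod_insert hj, Finset.prod_insert hj, hc', hcj, mul_zpow, map_mul, map_zpow₀,
      mul_pow]
    have h1 : (((NmL Qb r)^[j] u) ^ p) ^ (a j) = (((NmL Qb r)^[j] u) ^ (a j)) ^ p := by
      rw [← zpow_natCast, ← zpow_mul, mul_comm, zpow_mul, zpow_natCast]
    rw [h1]
    ring

theorem OpU_iterate_ne_zero {k : Type*} [Field k] (r : ℕ) [NeZero r] {w : LaurentSeries k}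
    (hw : w ≠ 0) (i : ℕ) : (NmL k r)^[i] w ≠ 0 := by
  induction i with
  | zero => exact hw
  | succ i ih =>
    rw [Function.iterate_succ_apply']
    exact MR.A.HeckeRed_NmL_ne_zero r ih

theorem OpU_hasRed_iterate {A : ValuationSubring Qb} (r : ℕ) [NeZero r] {x : LaurentSeries Qb}
    {z : LaurentSeries (kA A)} (h : HasRed A x z) (i : ℕ) :
    HasRed A ((NmL Qb r)^[i] x) ((NmL (kA A) r)^[i] z) := by
  induction i with
  | zero => exact h
  | succ i ih =>
    rw [Function.iterate_succ_apply', Function.iterate_succ_apply']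
    exact MR.A.hasRed_NmL_any r ih

theorem OpU_hasRed_prod {A : ValuationSubring Qb} (r : ℕ) [NeZero r] {x : LaurentSeries Qb}
    {z : LaurentSeries (kA A)} (h : HasRed A x z) (hz : z ≠ 0) (a : ℕ → ℤ) (s : Finset ℕ) :
    HasRed A (∏ i ∈ s, ((NmL Qb r)^[i] x) ^ (a i)) (∏ i ∈ s, ((NmL (kA A) r)^[i] z) ^ (a i)) := by
  classical
  induction s using Finset.induction_on with
  | empty => rw [Finset.prod_empty, Finset.prod_empty]; exact HasRed.one
  | insert j s hj ih =>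
    rw [Finset.prod_insert hj, Finset.prod_insert hj]
    exact (MR.A.hasRed_zpow (OpU_hasRed_iterate r h j) (OpU_iterate_ne_zero r hz j) (a j)).mul ih

theorem OpU_dlog_iterate {k : Type*} [Field k] (r : ℕ) [NeZero r] (hr : (r : k) ≠ 0) {ζ : kˣ}
    (hζ : IsPrimitiveRoot ζ r) {w : LaurentSeries k} (hw : w ≠ 0) (i : ℕ) :
    dlog ((NmL k r)^[i] w) = (opU r)^[i] (dlog w) := by
  induction i with
  | zero => rfl
  | succ i ih =>
    rw [Function.iterate_succ_apply', Function.iterate_succ_apply',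
      MR.A.dlog_NmL r hr hζ (OpU_iterate_ne_zero r hw i), ih]

/-- **MR-CH-6** polynomial relation for `U_r`.
PROOF: `H := C c * u^p`, `g := polyRel r R u`.  `X := ∏ i ∈ R.support, ((NmL Qb r)^[i] H)^(R.coeff i) = C c' * g^p` (`NmL` is multiplicative,
`(NmL Qb r)^[i] (C c)` is a constant: `NmL_C`-type lemma; `MonoidHom.iterate_map_pow`, `Finset.prod_mul_distrib`, `Finset.prod_pow`).
`HasRed A ((NmL Qb r)^[i] H) ((NmL (kA A) r)^[i] ab)` (induction, `MR.A.hasRed_NmL_any`), non-zero; `MR.A.hasRed_zpow`, product: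
`HasRed A X Xb`, `Xb = ∏ ((NmL (kA A) r)^[i] ab)^(R.coeff i)`; `MR.A.dlog_eq_zero_of_eq_C_mul_pow`: `dlog Xb = 0`;
`MR.A.dlog_prod`, `MR.A.dlog_zpow`, `MR.A.dlog_NmL` (induction: `dlog ((NmL)^[i] ab) = (opU r)^[i] (dlog ab)`; `ζ` from
`MR.A.HeckeRed_exists_primitiveRoot`, `MR.A.HeckeRed_natCast_ne_zero`); `Polynomial.sum_def`. -/
theorem opU_dlog_of_polyRel {p : ℕ} (hp : p.Prime) (A : ValuationSubring Qb)
    (hA : A.LiesOverPrime p) {r : ℕ} [NeZero r] (hrp : ¬ p ∣ r) {N : ℕ} {u : LaurentSeries Qb}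
    (hu0 : u ≠ 0) (R : Polynomial ℤ) (h : polyRel r R u ∈ FL Qb N) {c : Qb} (hc : c ≠ 0)
    {ab : LaurentSeries (kA A)} (hred : HasRed A (HahnSeries.C c * u ^ p) ab) (hab : ab ≠ 0) :
    R.sum (fun i c => HahnSeries.C ((c : ℤ) : kA A) * (opU r)^[i] (dlog ab)) = 0 := by
  obtain ⟨ζ, hζ⟩ := MR.A.HeckeRed_exists_primitiveRoot hp hA hrp
  have hr0 := MR.A.HeckeRed_natCast_ne_zero hp hA hrp
  obtain ⟨c', hc'⟩ := OpU_prod_C_mul_pow r p u c R.coeff R.support
  have hX := OpU_hasRed_prod r hred hab R.coeff R.support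
  have h0 := MR.A.dlog_eq_zero_of_eq_C_mul_pow hp hA h hc' hX
  rw [MR.A.dlog_prod _ _ fun i _ => zpow_ne_zero _ (OpU_iterate_ne_zero r hab i)] at h0
  rw [Polynomial.sum_def, ← h0]
  refine Finset.sum_congr rfl fun i _ => ?_
  rw [MR.A.dlog_zpow, OpU_dlog_iterate r hr0 hζ hab]

end Fermat.Agent.MR
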