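import Fermat.Agent.MR.Contracts
import Fermat.Agent.GAL.Mod.Quot

/-! # MR : glue lemma of the chain (`MR/Chain.lean`) -/

set_option autoImplicit false

open ModularCurve AlgebraicCurve
open WeierstrassCurve WeierstrassCurve.Affine WeierstrassCurve.Affine.Point
open FreyPackage

noncomputable section

namespace Fermat.Agent.MR

open Fermat.Agent.GAL Fermat.Agent.GR Fermat.Agent.GAL.KLC
open Fermat.Agent.MR.A (S2b opT opU PDiv Rb Fb dlog)
open Fermat.Agent.MR.E (HH FixU)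

section Emb

variable {M₁ p : ℕ} [NeZero M₁] [NeZero p] {V : Type*} [AddCommGroup V] [DistribMulAction GQ V]
  {good : Set ℕ} {a : ℕ → ℤ} {R : Polynomial ℤ}

theorem Emb.ne_zero (e : Emb M₁ p V good a R) (Q : V) : e.j Q ≠ 0 := (e.kum Q).1

/-- **MR-CH-1** `j (k • Q) ∼ (j Q)^k`.
PROOF: `φ : V → Additive (LU ⧸ FLu (M₁ * p))`, `Q ↦ class of Units.mk0 (j Q)`, is additive by `e.add` (`AddMonoidHom.mk'`,
`QuotientGroup.eq`), so `φ (k • Q) = k • φ Q` (`map_zsmul`); or: induction on `k` (`Int.induction_on`), with `j 0 ∈ FL` from `e.add 0 0`. -/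
theorem Emb.zsmul (e : Emb M₁ p V good a R) (Q : V) (k : ℤ) :
    e.j (k • Q) / e.j Q ^ k ∈ FL Qb (M₁ * p) := by
  have hq : e.j Q ≠ 0 := e.ne_zero Q
  have h0 : e.j 0 ∈ FL Qb (M₁ * p) := by
    have h1 := e.add 0 0
    rw [add_zero, div_mul_cancel_right₀ (e.ne_zero 0)] at h1
    have h2 := inv_mem h1
    rwa [inv_inv] at h2
  have hstep : ∀ m : ℤ, e.j ((m + 1) • Q) / e.j Q ^ (m + 1) =
      (e.j (m • Q + Q) / (e.j (m • Q) * e.j Q)) * (e.j (m • Q) / e.j Q ^ m) := by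
    intro m
    have hm : e.j (m • Q) ≠ 0 := e.ne_zero _
    rw [add_smul, one_smul, zpow_add_one₀ hq]
    have hqm : e.j Q ^ m ≠ 0 := zpow_ne_zero _ hq
    field_simp
  induction k using Int.induction_on with
  | zero =>
    rw [zero_smul, zpow_zero, div_one]
    exact h0
  | succ n ih =>
    rw [hstep]
    exact mul_mem (e.add _ _) ih
  | pred n ih =>
    have h1 := hstep (-(n : ℤ) - 1)
    rw [sub_add_cancel] at h1
    have hne : e.j ((-(n : ℤ) - 1) • Q + Q) / (e.j ((-(n : ℤ) - 1) • Q) * e.j Q) ≠ 0 :=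
      div_ne_zero (e.ne_zero _) (mul_ne_zero (e.ne_zero _) hq)
    have h2 : e.j ((-(n : ℤ) - 1) • Q) / e.j Q ^ (-(n : ℤ) - 1) =
        (e.j ((-(n : ℤ) - 1) • Q + Q) / (e.j ((-(n : ℤ) - 1) • Q) * e.j Q))⁻¹ *
          (e.j (-(n : ℤ) • Q) / e.j Q ^ (-(n : ℤ))) := by
      rw [h1, inv_mul_cancel_left₀ hne]
    rw [h2]
    exact mul_mem (inv_mem (e.add _ _)) ih

end Emb

end Fermat.Agent.MR
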